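/-
GATE-E (S59) / leaves E0-TF + E6-R (helper72): **the deformation rings `R^c_Σ` of the engine
contract EXIST, unconditionally** — for the problems `𝒟^{fl}_Σ = Graph.condFL 𝒪 p Smin Σ` and
`𝒟^{so}_Σ = Graph.condSO 𝒪 p Smin Σ` of `GE/Graph/RTStmt.lean` (frozen S56 shape, the Taylor–Wiles
set replaced by an arbitrary finite set `Σ`).

No Taylor–Wiles family is needed: the tangent space sits inside the WHOLE `H¹(G_{ℚ,S}, ad⁰ρ̄)`,
`S = primes of Smin ∪ Σ`, which is finite-dimensional by the Poitou–Tate package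
(`GP/GW/PTData.nonempty_ptData` + `NineTermQ.goodPair … .fin1`), so `Sel := ⊤` in helper11's
`SelmerCard.selmerBound_base_of_submodule` gives a `SelmerBound` (the trick of helper4's
`GB/Def/FramedExist.selmerBound_of_family`, without the family).

* `selmerBound_base`     : `∃ r, SelmerBound 𝒪 ρbar b (base (Smin ∪ Σ) ∧ unipotent at Smin) r`
  for every frozen-shaped base condition (`BaseGlobal`), from `p ≠ 2`, `p ∈ Smin`, `hmin`;
* `selmerBound_FL`, `selmerBound_SO` : the two engine problems;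
* **E0-TF** `tangentFinite_FL`, `tangentFinite_SO` : `GaloisRep.TangentFinite 𝒪 ρbar 𝒟^c_Σ`;
* **E6-R**  `nonempty_defRing_FL`, `nonempty_defRing_SO` :
  `Nonempty (GaloisRep.DeformationRingData 𝒪 ρbar 𝒟^c_Σ)` through the landed S53, in hypothesis
  form on `hbar : 𝒟^c_Σ (ofResidualGaloisRep ρbar)`;
* `exists_surjective_FL`, `exists_surjective_SO` : `𝒪⟦X₁,…,X_r⟧ ↠ R^c_Σ` for the SAME `r`
  (topological generation; consumer form of `TanTop.s56Flat_surjective/s56Strict_surjective`).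
NEW file; imports only.
-/
import Mathlib
import Fermat.Agent.GE.Graph.RTStmt
import Fermat.Agent.GB.Def.CondPlug
import Fermat.Agent.GP.GW.NineTermQ
import Fermat.Agent.GP.Tan.SelmerCard
import Fermat.Agent.GP.Tan.SelmerAd0
import Fermat.Agent.GP.Bridge.Ad0RepInst

set_option autoImplicit false
set_option linter.unusedSectionVars false
set_option linter.style.haveILetI false

namespace Fermat.Agent.GE6.DefRing

open IsLocalRing Fermat.Agent.S53_helper35 Matrix Fermat.Agent.GP.Tan.Cocycle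
  Fermat.Agent.GP.Tan.TanTop Fermat.Agent.GP.Tan.SelmerFrozen Fermat.Agent.GP.Tan.SelmerCard
  Fermat.Agent.GC.Prof Fermat.Agent.GC.C0 Fermat.Agent.GP.GW Module
  Fermat.Agent.GP.Bridge.Ad0 ExtCitation groupCohomology

noncomputable section

variable {𝒪 : Type} [CommRing 𝒪] [IsDomain 𝒪] [IsDiscreteValuationRing 𝒪]
  [IsAdicComplete (maximalIdeal 𝒪) 𝒪] [Finite (ResidueField 𝒪)]
  (p : ℕ) [Fact p.Prime] [Algebra (ZMod p) (ResidueField 𝒪)]
  (ρbar : ResidualGaloisRep (ResidueField 𝒪))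
  (b : Module.Basis (Fin 2) (ResidueField 𝒪) ρbar.V)

/-! ### the unconditional Selmer bound -/

/-- **An unconditional Selmer bound** for every frozen-shaped deformation problem of level
`Smin ∪ Σ`: the whole `H¹(G_{ℚ,S}, ad⁰ρ̄)` is finite-dimensional and contains all admissible
classes. -/
theorem selmerBound_base (hp2 : p ≠ 2)
    (base : Finset ℕ → ∀ ⦃A : Type⦄ [CommRing A] [IsLocalRing A] [Algebra 𝒪 A],
      GaloisRepAdic A → Prop)
    (hbase : BaseGlobal 𝒪 p base) (Smin Sig : Finset ℕ) (hpSmin : p ∈ Smin)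
    (hmin : ∀ q : ℕ, q.Prime → q ≠ p → (q ∈ Smin ↔ ¬ ρbar.IsUnramifiedAt q)) :
    ∃ r : ℕ, SelmerBound 𝒪 ρbar b (fun _A _ _ _ ρ =>
      base (Smin ∪ Sig) ρ ∧ ∀ q ∈ Smin, q.Prime → q ≠ p → ρ.IsUnipotentOnInertiaAt q) r := by
  classical
  set S : Finset Nat.Primes := primesIn (Smin ∪ Sig) with hSdef
  have hS : ∀ q : Nat.Primes, (q : ℕ) ∈ Smin ∪ Sig → q ∈ S := fun q hq => mem_primesIn.2 hq
  have hpS : pPrime p ∈ S := hS (pPrime p) (Finset.mem_union_left _ hpSmin)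
  have hur : ∀ q : Nat.Primes, q ∉ S → ρbar.IsUnramifiedAt (q : ℕ) :=
    Fermat.Agent.GP.Tan.SelmerAd0.unramified_outside_of_hmin p ρbar Smin hpSmin hmin S
      fun q hq => hS q (Finset.mem_union_left _ hq)
  haveI hdT : IsDiscrete (levelS S) (TChi p) := isDiscrete_TChi S hpS
  haveI hdN : IsDiscrete (levelS S) (adBar p ρbar b) := isDiscrete_adBar p ρbar b S hur
  haveI hdNs : IsDiscrete (levelS S) ((adBar p ρbar b).dualTwist (cycloChar p)) :=
    NineTermQ.isDiscrete_dual hpS (adBar p ρbar b)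
  obtain ⟨Δ⟩ := nonempty_ptData hp2 S hpS
  haveI hfin : FiniteDimensional (ZMod p) (Hlc (levelS S) (adBar p ρbar b) 1) :=
    (NineTermQ.goodPair Δ hpS (adBar p ρbar b)).fin1
  have h2 : (2 : ResidueField 𝒪) ≠ 0 := two_ne_zero_of_odd p hp2
  have hk : Nat.card (ResidueField 𝒪) = p ^ finrank (ZMod p) (ResidueField 𝒪) :=
    natCard_eq_pow_finrank_zmod p (ResidueField 𝒪)
  have hd : 0 < finrank (ZMod p) (ResidueField 𝒪) := by
    by_contra h0
    have h0' : finrank (ZMod p) (ResidueField 𝒪) = 0 := by omega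
    rw [h0', pow_zero] at hk
    have : 1 < Nat.card (ResidueField 𝒪) := Finite.one_lt_card
    omega
  refine ⟨finrank (ZMod p) (Hlc (levelS S) (adBar p ρbar b) 1), ?_⟩
  exact selmerBound_base_of_submodule ρbar b p base hbase Smin Sig S hS
    (adBar p ρbar b) (emb p (toMatRes ρbar b) 1) (emb_injective p _ 1) (emb_surjective p _ 1)
    (emb_ρ_one p _) h2 (finrank (ZMod p) (Hlc (levelS S) (adBar p ρbar b) 1))
    (finrank (ZMod p) (ResidueField 𝒪)) hk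
    (⊤ : Submodule (ZMod p) (Hlc (levelS S) (adBar p ρbar b) 1))
    (by
      rw [finrank_top]
      exact Nat.le_mul_of_pos_right _ hd)
    (fun _ _ _ _ _ _ => Submodule.mem_top)

/-- the flat engine problem `𝒟^{fl}_Σ`. -/
theorem selmerBound_FL (hp2 : p ≠ 2) (Smin Sig : Finset ℕ) (hpSmin : p ∈ Smin)
    (hmin : ∀ q : ℕ, q.Prime → q ≠ p → (q ∈ Smin ↔ ¬ ρbar.IsUnramifiedAt q)) :
    ∃ r : ℕ, SelmerBound 𝒪 ρbar b (Fermat.Agent.GE.Graph.condFL 𝒪 p Smin Sig) r :=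
  selmerBound_base p ρbar b hp2 (GaloisRep.flatCondition 𝒪 p) (baseGlobal_flat 𝒪 p) Smin Sig
    hpSmin hmin

/-- the strict-ordinary engine problem `𝒟^{so}_Σ`. -/
theorem selmerBound_SO (hp2 : p ≠ 2) (Smin Sig : Finset ℕ) (hpSmin : p ∈ Smin)
    (hmin : ∀ q : ℕ, q.Prime → q ≠ p → (q ∈ Smin ↔ ¬ ρbar.IsUnramifiedAt q)) :
    ∃ r : ℕ, SelmerBound 𝒪 ρbar b (Fermat.Agent.GE.Graph.condSO 𝒪 p Smin Sig) r :=
  selmerBound_base p ρbar b hp2 (GaloisRep.strictOrdinaryCondition 𝒪 p)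
    (baseGlobal_strictOrdinary 𝒪 p) Smin Sig hpSmin hmin

/-! ### E0-TF : the tangent spaces are finite -/

/-- **E0-TF, flat.** -/
theorem tangentFinite_FL (hp2 : p ≠ 2) (Smin Sig : Finset ℕ) (hpSmin : p ∈ Smin)
    (hmin : ∀ q : ℕ, q.Prime → q ≠ p → (q ∈ Smin ↔ ¬ ρbar.IsUnramifiedAt q)) :
    GaloisRep.TangentFinite 𝒪 ρbar (Fermat.Agent.GE.Graph.condFL 𝒪 p Smin Sig) := by
  obtain ⟨r, hSel⟩ := selmerBound_FL p ρbar (stdBasisRes ρbar) hp2 Smin Sig hpSmin hmin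
  exact Fermat.Agent.GB.Def.Cond.TanFin.tangentFinite_of_selmerBound 𝒪 ρbar (stdBasisRes ρbar) _
    (fun _ _ _ h => h) hSel

/-- **E0-TF, strict-ordinary.** -/
theorem tangentFinite_SO (hp2 : p ≠ 2) (Smin Sig : Finset ℕ) (hpSmin : p ∈ Smin)
    (hmin : ∀ q : ℕ, q.Prime → q ≠ p → (q ∈ Smin ↔ ¬ ρbar.IsUnramifiedAt q)) :
    GaloisRep.TangentFinite 𝒪 ρbar (Fermat.Agent.GE.Graph.condSO 𝒪 p Smin Sig) := by
  obtain ⟨r, hSel⟩ := selmerBound_SO p ρbar (stdBasisRes ρbar) hp2 Smin Sig hpSmin hmin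
  exact Fermat.Agent.GB.Def.Cond.TanFin.tangentFinite_of_selmerBound 𝒪 ρbar (stdBasisRes ρbar) _
    (fun _ _ _ h => h) hSel

/-! ### E6-R : the deformation rings exist -/

/-- **E6-R, flat**: `R^{fl}_Σ` exists. -/
theorem nonempty_defRing_FL (hp2 : p ≠ 2) (habs : ρbar.IsAbsolutelyIrreducible)
    (Smin Sig : Finset ℕ) (hpSmin : p ∈ Smin)
    (hmin : ∀ q : ℕ, q.Prime → q ≠ p → (q ∈ Smin ↔ ¬ ρbar.IsUnramifiedAt q))
    (hbar : Fermat.Agent.GE.Graph.condFL 𝒪 p Smin Sig (GaloisRepAdic.ofResidualGaloisRep ρbar)) :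
    Nonempty (GaloisRep.DeformationRingData 𝒪 ρbar
      (Fermat.Agent.GE.Graph.condFL 𝒪 p Smin Sig)) :=
  Fermat.Agent.S53.result 𝒪 ρbar _ habs
    (Fermat.Agent.GB.Def.Cond.isDeformationCondition_FL 𝒪 p (Smin ∪ Sig) Smin) hbar
    (tangentFinite_FL p ρbar hp2 Smin Sig hpSmin hmin)

/-- **E6-R, strict-ordinary**: `R^{so}_Σ` exists. -/
theorem nonempty_defRing_SO (hp2 : p ≠ 2) (habs : ρbar.IsAbsolutelyIrreducible)
    (Smin Sig : Finset ℕ) (hpSmin : p ∈ Smin)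
    (hmin : ∀ q : ℕ, q.Prime → q ≠ p → (q ∈ Smin ↔ ¬ ρbar.IsUnramifiedAt q))
    (hbar : Fermat.Agent.GE.Graph.condSO 𝒪 p Smin Sig (GaloisRepAdic.ofResidualGaloisRep ρbar)) :
    Nonempty (GaloisRep.DeformationRingData 𝒪 ρbar
      (Fermat.Agent.GE.Graph.condSO 𝒪 p Smin Sig)) :=
  Fermat.Agent.S53.result 𝒪 ρbar _ habs
    (Fermat.Agent.GB.Def.Cond.isDeformationCondition_SO 𝒪 p hp2 (Smin ∪ Sig) Smin) hbar
    (tangentFinite_SO p ρbar hp2 Smin Sig hpSmin hmin)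

/-! ### topological generation -/

/-- `𝒪⟦X₁,…,X_r⟧ ↠ R^{fl}_Σ` for every datum, with `r` depending only on `(ρ̄, Smin, Σ)`. -/
theorem exists_surjective_FL (hp2 : p ≠ 2) (Smin Sig : Finset ℕ) (hpSmin : p ∈ Smin)
    (hmin : ∀ q : ℕ, q.Prime → q ≠ p → (q ∈ Smin ↔ ¬ ρbar.IsUnramifiedAt q)) :
    ∃ r : ℕ, ∀ D : GaloisRep.DeformationRingData 𝒪 ρbar
        (Fermat.Agent.GE.Graph.condFL 𝒪 p Smin Sig),
      ∃ γ : MvPowerSeries (Fin r) 𝒪 →ₐ[𝒪] D.R, Function.Surjective γ := by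
  obtain ⟨r, hSel⟩ := selmerBound_FL p ρbar (stdBasisRes ρbar) hp2 Smin Sig hpSmin hmin
  exact ⟨r, fun D => s56Flat_surjective p Smin (Smin ∪ Sig) D (stdBasisRes ρbar) hSel⟩

/-- `𝒪⟦X₁,…,X_r⟧ ↠ R^{so}_Σ` for every datum, with `r` depending only on `(ρ̄, Smin, Σ)`. -/
theorem exists_surjective_SO (hp2 : p ≠ 2) (Smin Sig : Finset ℕ) (hpSmin : p ∈ Smin)
    (hmin : ∀ q : ℕ, q.Prime → q ≠ p → (q ∈ Smin ↔ ¬ ρbar.IsUnramifiedAt q)) :
    ∃ r : ℕ, ∀ D : GaloisRep.DeformationRingData 𝒪 ρbar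
        (Fermat.Agent.GE.Graph.condSO 𝒪 p Smin Sig),
      ∃ γ : MvPowerSeries (Fin r) 𝒪 →ₐ[𝒪] D.R, Function.Surjective γ := by
  obtain ⟨r, hSel⟩ := selmerBound_SO p ρbar (stdBasisRes ρbar) hp2 Smin Sig hpSmin hmin
  exact ⟨r, fun D => s56Strict_surjective p Smin (Smin ∪ Sig) D (stdBasisRes ρbar) hSel⟩

end

end Fermat.Agent.GE6.DefRing
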