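import Fermat.Agent.GE6.Assembly

/-!
# GATE-E / E6 : the residual statement of the node (helper12)

After `GE6/Level` (abstract Taylor–Wiles datum of depth `n` ⟹ Prelude `PatchingLevel` at `J_n`),
`GE6/MinRT` (helper10: `PatchingDatum` ⟹ `R ≅ T`) and `GE6/Assembly`, the node E6 is reduced to ONE
`Prop`:

* `TWLevelsStmt ℓ D φ M` : for the surjection `φ : D.R ↠ T` (frozen S54) and the `T`-module `M`
  (`= H¹(Γ₀(N_∅), 𝒪)_𝔪`) there are `r` and, for EVERY depth `n`, a `TWDepth 𝒪 ℓ r D.R M n`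
  (`D.R` acting on `M` through `φ`).

It is what S56 (the sets `Q_n`, `r` topological generators of `R_{Q_n}`), E2 (`GE2/AugQuot`:
`R_Q/𝔞_Q ≅ R_∅`, `𝔞_Q = (g_q − 1)_q` by the Taylor–Wiles characters) and the GATE-B provider
structure (R5: `T_Q`, `M_Q`, `Δ_Q`-freeness, `ρ_Q`, local–global at `Q`) have to produce.

* `exists_rtData_of_twLevelsStmt` : `TWLevelsStmt` ⟹ an `RTData` (the engine contract
  `GE/Graph/RTStmt`) with the given level `N`, set `S` and deformation ring `D`.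
* `minRT_of_twLevelsStmt` : `TWLevelsStmt` ⟹ `φ` bijective, `M` free over `D.R`, and the
  complete-intersection presentation (the input of E9-BASE, `GE9/Ind/Base`).
-/

set_option autoImplicit false
set_option linter.style.haveILetI false

namespace Fermat.Agent.GE6.Stmt

open IsLocalRing Polynomial CuspForm Fermat.Agent.GE6.Level Fermat.Agent.GE.Graph

/-- `G_ℚ`. -/
local notation "GQ" => (AlgebraicClosure ℚ ≃ₐ[ℚ] AlgebraicClosure ℚ)

variable {𝒪 : Type} [CommRing 𝒪] [IsDomain 𝒪] [IsDiscreteValuationRing 𝒪]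
  [IsAdicComplete (maximalIdeal 𝒪) 𝒪]
  {ρbar : ResidualGaloisRep (ResidueField 𝒪)} {𝒟 : DefCondE 𝒪}

/-- **E6-TW, the residual input of E6**: Taylor–Wiles data of every depth for `(D.R, M)`,
`D.R` acting on the `T`-module `M` through `φ`. -/
def TWLevelsStmt (ℓ : ℕ) (D : GaloisRep.DeformationRingData 𝒪 ρbar 𝒟)
    {T : Type} [CommRing T] [Algebra 𝒪 T] (φ : D.R →ₐ[𝒪] T)
    (M : Type) [AddCommGroup M] [Module T M] : Prop :=
  ∃ r : ℕ, ∀ n : ℕ,
    Nonempty (@TWDepth 𝒪 _ ℓ r D.R _ _ M _ (Module.compHom M (φ : D.R →+* T)) n)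

variable [Finite (ResidueField 𝒪)]

/-- E6, ring-theoretic output (the input of E9-BASE). -/
theorem minRT_of_twLevelsStmt {ℓ : ℕ} (hℓ : ℓ.Prime) (hℓ𝒪 : (ℓ : 𝒪) ∈ maximalIdeal 𝒪)
    (D : GaloisRep.DeformationRingData 𝒪 ρbar 𝒟)
    {T : Type} [CommRing T] [Algebra 𝒪 T] (φ : D.R →ₐ[𝒪] T) (hφ : Function.Surjective φ)
    {M : Type} [AddCommGroup M] [Module T M] [Nontrivial M]
    (h : TWLevelsStmt ℓ D φ M) :
    letI : Module D.R M := Module.compHom M (φ : D.R →+* T)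
    Function.Bijective φ ∧ Module.Free D.R M ∧ Module.Free T M ∧
      ∃ (r : ℕ) (L' : Algebra.PatchingLevel 𝒪 r D.R M ⊥),
        RingHom.ker L'.ψ = Ideal.span (Set.range fun i : Fin r => L'.φ (MvPowerSeries.X i)) := by
  letI : Module D.R M := Module.compHom M (φ : D.R →+* T)
  obtain ⟨r, hL⟩ := h
  have L : ∀ n, TWDepth 𝒪 ℓ r D.R M n := fun n => (hL n).some
  have hcompat : ∀ (x : D.R) (m : M), x • m = φ x • m := fun _ _ => rfl
  obtain ⟨h1, h2, L', h3⟩ :=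
    Fermat.Agent.GE6.Assembly.bijective_of_twDepth hℓ hℓ𝒪 D.residue_surjective φ hφ hcompat L
  exact ⟨h1, h2,
    Fermat.Agent.GE6.Assembly.free_of_twDepth hℓ hℓ𝒪 D.residue_surjective φ hφ hcompat L,
    r, L', h3⟩

/-- **E6, engine output**: `TWLevelsStmt` gives an `R = T` datum at the given level. -/
theorem exists_rtData_of_twLevelsStmt {ℓ : ℕ} (hℓ : ℓ.Prime) (hℓ𝒪 : (ℓ : 𝒪) ∈ maximalIdeal 𝒪)
    (D : GaloisRep.DeformationRingData 𝒪 ρbar 𝒟)
    {N : ℕ} [NeZero N] {S : Set ℕ} {T : Type} [CommRing T] [IsLocalRing T] [Algebra 𝒪 T]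
    (π : heckeAlgebra N 2 S →+* T) (ρT : GaloisRepAdic T)
    (hcp : ∀ (q : ℕ) (hq : q.Prime) (hqN : ¬ q ∣ N) (hqS : q ∉ S),
      ∀ A : ValuationSubring (AlgebraicClosure ℚ), A.LiesOverPrime q →
        ∀ σ : GQ, A.IsFrobeniusAt σ q →
          LinearMap.charpoly (ρT.ρ σ) =
            X ^ 2 - C (π (heckeAlgebra.T hq hqN hqS)) * X + C ((q : T)))
    (φ : D.R →ₐ[𝒪] T) (hφ : Function.Surjective φ) (φ_local : IsLocalHom (φ : D.R →+* T))
    (φ_ρ : (D.ρ.baseChangeAlong (φ : D.R →+* T) φ_local).IsEquiv ρT)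
    {M : Type} [AddCommGroup M] [Module T M] [Nontrivial M]
    (h : TWLevelsStmt ℓ D φ M) :
    ∃ X' : RTData ρbar 𝒟, X'.N = N ∧ X'.S = S ∧ X'.D = D := by
  letI : Module D.R M := Module.compHom M (φ : D.R →+* T)
  obtain ⟨r, hL⟩ := h
  exact Fermat.Agent.GE6.Assembly.exists_rtData_of_twDepth hℓ hℓ𝒪 D π ρT hcp φ hφ φ_local φ_ρ
    (fun _ _ => rfl) (fun n => (hL n).some)

end Fermat.Agent.GE6.Stmt
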