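import Fermat.Agent.GE6.Level
import Fermat.Agent.GB.B3.TWLevel

/-!
# GATE-E / E6 instance pre-work (helper12): a GATE-B `FreeLevel` is the module side of a `TWDepth`

`F : FreeLevel 𝒪 𝕋 M0 act0 r (fun _ => ℓ ^ n)` (GB/B3/TWLevel, helper95: the module
`M_Q = H¹(Γ ∩ Γ_H(Q), 𝒪)_{𝔪_Q}` with its `r` diamond generators of order dividing `ℓ^n`,
`Δ_Q`-freeness in basis form and the coinvariant projection onto `M0 = M_∅`), together with the ring
side `(RQ, γ, g, β)` and an `RQ`-module structure on `F.M` in which `g j` acts as the diamond `F.D j`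
and `F.π` is `β`-semilinear, IS a `TWDepth 𝒪 ℓ r R M0 n` (`twDepthOfFreeLevel`).
-/

set_option autoImplicit false
set_option linter.unusedSectionVars false

namespace Fermat.Agent.GE6.OfFreeLevel

open Fermat.Agent.GB.B3.TWLevel MvPowerSeries

section Abs

variable {𝒪 : Type*} [CommRing 𝒪] {A : Type*} [CommRing A] [Algebra 𝒪 A]
  {M : Type*} [AddCommGroup M] [Module 𝒪 M] [Module A M] [IsScalarTower 𝒪 A M] {k : ℕ}

theorem pow_smul_eq (x : A) (D : Module.End 𝒪 M) (h : ∀ m : M, x • m = D m) (t : ℕ) (m : M) :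
    x ^ t • m = (D ^ t) m := by
  induction t generalizing m with
  | zero => simp
  | succ t ih => rw [pow_succ, mul_smul, h, ih, pow_succ, Module.End.mul_apply]

/-- the product of the `g j ^ a j` acts as the monomial operator `mono D a`. -/
theorem prod_pow_smul_eq (g : Fin k → A) (D : Fin k → Module.End 𝒪 M)
    (h : ∀ j (m : M), g j • m = D j m) (a : Fin k → ℕ) (m : M) :
    (∏ j, g j ^ a j) • m = mono D a m := by
  induction k generalizing m with
  | zero =>
    simp [Fermat.Agent.GB.B3.TWLevel.mono]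
  | succ k ih =>
    rw [Fin.prod_univ_succ, mul_smul, ih (fun j => g j.succ) (fun j => D j.succ)
      (fun j m => h j.succ m) (fun j => a j.succ), pow_smul_eq (g 0) (D 0) (h 0)]
    unfold mono
    rw [List.ofFn_succ, List.prod_cons, Module.End.mul_apply]

/-- the coinvariant submodule, ring form vs. operator form -/
theorem mem_span_smul_top_iff (g : Fin k → A) (D : Fin k → Module.End 𝒪 M)
    (h : ∀ j (m : M), g j • m = D j m) (x : M) :
    x ∈ (Ideal.span (Set.range fun j => g j - 1)) • (⊤ : Submodule A M) ↔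
      x ∈ ⨆ i, LinearMap.range (D i - 1) := by
  have key : ∀ a ∈ Ideal.span (Set.range fun j => g j - 1), ∀ m : M,
      a • m ∈ ⨆ i, LinearMap.range (D i - 1) := by
    intro a ha
    refine Submodule.span_induction
      (p := fun a _ => ∀ m : M, a • m ∈ ⨆ i, LinearMap.range (D i - 1)) ?_ ?_ ?_ ?_ ha
    · rintro _ ⟨j, rfl⟩ m
      refine Submodule.mem_iSup_of_mem j ⟨m, ?_⟩
      rw [LinearMap.sub_apply, Module.End.one_apply, sub_smul, one_smul, h]
    · intro m
      rw [zero_smul]
      exact Submodule.zero_mem _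
    · intro a b _ _ ha hb m
      rw [add_smul]
      exact Submodule.add_mem _ (ha m) (hb m)
    · intro c a _ ha m
      rw [smul_eq_mul, mul_comm, mul_smul]
      exact ha (c • m)
  constructor
  · intro hx
    refine Submodule.smul_induction_on hx (fun a ha m _ => key a ha m) (fun y z hy hz => ?_)
    exact Submodule.add_mem _ hy hz
  · intro hx
    refine Submodule.iSup_induction _ (motive := fun x =>
      x ∈ (Ideal.span (Set.range fun j => g j - 1)) • (⊤ : Submodule A M)) hx ?_ ?_ ?_
    · rintro i _ ⟨m, rfl⟩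
      have h1 : (D i - 1) m = (g i - 1) • m := by
        rw [LinearMap.sub_apply, Module.End.one_apply, sub_smul, one_smul, h]
      rw [h1]
      exact Submodule.smul_mem_smul (Ideal.subset_span ⟨i, rfl⟩) Submodule.mem_top
    · exact Submodule.zero_mem _
    · intro y z hy hz
      exact Submodule.add_mem _ hy hz

end Abs

section Main

variable {𝒪 : Type} [CommRing 𝒪] {ℓ r n : ℕ} {𝕋 : Type} [CommRing 𝕋] [Algebra 𝒪 𝕋]
  {R : Type} [CommRing R] [Algebra 𝒪 R]
  {M0 : Type} [AddCommGroup M0] [Module 𝒪 M0] [Module R M0]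
  {act0 : 𝕋 →ₐ[𝒪] Module.End 𝒪 M0}

/-- **A GATE-B `FreeLevel` of exponents `ℓ^n` with a compatible ring side is a `TWDepth`.** -/
noncomputable def twDepthOfFreeLevel (F : FreeLevel 𝒪 𝕋 M0 act0 r (fun _ => ℓ ^ n))
    {RQ : Type} [CommRing RQ] [Algebra 𝒪 RQ]
    (γ : MvPowerSeries (Fin r) 𝒪 →ₐ[𝒪] RQ) (hγ : Function.Surjective γ) (g : Fin r → RQ)
    (g_lift : ∀ j, ∃ y : MvPowerSeries (Fin r) 𝒪, ¬ IsUnit (constantCoeff y) ∧ γ y = g j - 1)
    (β : RQ →ₐ[𝒪] R) (hβ : Function.Surjective β)
    (ker_β : RingHom.ker β = Ideal.span (Set.range fun j => g j - 1))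
    [Module RQ F.M] [IsScalarTower 𝒪 RQ F.M]
    (hg : ∀ (j : Fin r) (m : F.M), g j • m = F.D j m)
    (hπ : ∀ (x : RQ) (m : F.M), F.π (x • m) = β x • F.π m) :
    Fermat.Agent.GE6.Level.TWDepth 𝒪 ℓ r R M0 n where
  RQ := RQ
  γ := γ
  γ_surjective := hγ
  g := g
  g_lift := g_lift
  β := β
  β_surjective := hβ
  ker_β := ker_β
  MQ := F.M
  π := F.π.toAddMonoidHom
  π_smul := hπ
  π_surjective := F.π_surjective
  ker_π := by
    intro m
    rw [mem_span_smul_top_iff g F.D hg]
    exact F.ker_π m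
  d := F.d
  e := F.e
  g_pow := by
    intro j m
    rw [pow_smul_eq (g j) (F.D j) (hg j), F.D_pow, Module.End.one_apply]
  span := by
    classical
    intro m
    refine ⟨fun a i => F.basis.repr m (a, i), ?_⟩
    have h1 := (F.basis.sum_repr m).symm
    rw [Fintype.sum_prod_type] at h1
    refine h1.trans ?_
    refine Finset.sum_congr rfl fun a _ => Finset.sum_congr rfl fun i _ => ?_
    rw [mul_smul, prod_pow_smul_eq g F.D hg, algebraMap_smul, F.basis_eq]
  indep := by
    classical
    intro c hc a i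
    have h1 : ∑ x : (Fin r → Fin (ℓ ^ n)) × Fin F.d, c x.1 x.2 • F.basis x = 0 := by
      rw [Fintype.sum_prod_type, ← hc]
      refine Finset.sum_congr rfl fun a _ => Finset.sum_congr rfl fun i _ => ?_
      rw [mul_smul, prod_pow_smul_eq g F.D hg, algebraMap_smul, F.basis_eq]
    exact Fintype.linearIndependent_iff.mp F.basis.linearIndependent (fun x => c x.1 x.2) h1 (a, i)

end Main

end Fermat.Agent.GE6.OfFreeLevel
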