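/-
GATE-E (S59, modularity lifting) / node E6 ASSEMBLY-MIN, abstract core (helper10, gate lead).

`R → T` surjective, `M` a module over both (compatibly), and a Prelude `PatchingDatum` for the
`R`-module `M`  ⟹  `R → T` is BIJECTIVE, `M` is free over `R` (hence over `T`), and `R` is the
quotient of `Λ = 𝒪⟦X₁..X_r⟧` by the `r` elements `φ X_i` (complete intersection presentation).

Inputs used: `GB/Patch/Main.exists_patchingLevel_bot` (E1, on main) and `S57.result` (on main).
This is the ONLY place where E6 touches commutative algebra; everything else in E6 is the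
construction of the `PatchingDatum` from the Taylor–Wiles levels (GATE-B provider output).
-/
import Fermat.Agent.S57
import Fermat.Agent.GB.Patch.Main

set_option autoImplicit false

namespace Fermat.Agent.GE6.MinRT

open IsLocalRing

variable {𝒪 : Type} [CommRing 𝒪] [IsDomain 𝒪] [IsDiscreteValuationRing 𝒪]
  [IsAdicComplete (maximalIdeal 𝒪) 𝒪] [Finite (ResidueField 𝒪)] {ℓ r : ℕ}
  {R : Type} [CommRing R] [IsLocalRing R] [IsNoetherianRing R]
  [IsAdicComplete (maximalIdeal R) R] [Algebra 𝒪 R] [IsLocalHom (algebraMap 𝒪 R)]
  {T : Type} [CommRing T] [Algebra 𝒪 T]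
  {M : Type} [AddCommGroup M] [Module R M] [Module T M] [Nontrivial M]

/-- **E6, abstract core.**  A patching datum for `M` over `R` forces `R → T` to be bijective. -/
theorem bijective_of_patchingDatum (hℓ : (ℓ : 𝒪) ∈ maximalIdeal 𝒪)
    (hres : Function.Surjective (residue R ∘ algebraMap 𝒪 R))
    (φ : R →ₐ[𝒪] T) (hφ : Function.Surjective φ)
    (hcompat : ∀ (x : R) (m : M), x • m = φ x • m)
    (D : Algebra.PatchingDatum 𝒪 ℓ r R M) :
    Function.Bijective φ ∧ Module.Free R M ∧
      ∃ L : Algebra.PatchingLevel 𝒪 r R M ⊥,
        RingHom.ker L.ψ = Ideal.span (Set.range fun i : Fin r => L.φ (MvPowerSeries.X i)) := by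
  obtain ⟨L⟩ := Fermat.Agent.GB.Patch.exists_patchingLevel_bot hℓ hres D
  obtain ⟨hfree, hann, hker⟩ := Fermat.Agent.S57.result L
  refine ⟨⟨?_, hφ⟩, hfree, L, hker⟩
  rw [injective_iff_map_eq_zero]
  intro x hx
  have hmem : x ∈ Module.annihilator R M := by
    rw [Module.mem_annihilator]
    intro m
    rw [hcompat, hx, zero_smul]
  rw [hann] at hmem
  exact hmem

/-- `M` is free over `T` as well (transport along the bijection). -/
theorem free_of_patchingDatum (hℓ : (ℓ : 𝒪) ∈ maximalIdeal 𝒪)
    (hres : Function.Surjective (residue R ∘ algebraMap 𝒪 R))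
    (φ : R →ₐ[𝒪] T) (hφ : Function.Surjective φ)
    (hcompat : ∀ (x : R) (m : M), x • m = φ x • m)
    (D : Algebra.PatchingDatum 𝒪 ℓ r R M) : Module.Free T M := by
  obtain ⟨hbij, hfree, -⟩ := bijective_of_patchingDatum hℓ hres φ hφ hcompat D
  let e : R ≃+* T := RingEquiv.ofBijective (φ : R →+* T) hbij
  obtain ⟨⟨ι, b⟩⟩ := hfree
  -- transport the basis
  refine Module.Free.of_basis (ι := ι) (Module.Basis.ofRepr
    { toFun := fun m => (b.repr m).mapRange e (map_zero e)
      invFun := fun c => b.repr.symm (c.mapRange e.symm (map_zero e.symm))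
      left_inv := fun m => by
        simp only
        have : ((b.repr m).mapRange e (map_zero e)).mapRange e.symm (map_zero e.symm)
            = b.repr m := by
          ext i; simp
        rw [this, LinearEquiv.symm_apply_apply]
      right_inv := fun c => by
        simp only
        rw [LinearEquiv.apply_symm_apply]
        ext i; simp
      map_add' := fun m n => by
        ext i; simp
      map_smul' := fun t m => by
        ext i
        obtain ⟨x, rfl⟩ := hφ t
        have h1 : (φ x) • m = x • m := (hcompat x m).symm
        simp only [RingHom.id_apply, Finsupp.mapRange_apply, Finsupp.smul_apply, smul_eq_mul]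
        rw [h1, map_smul, Finsupp.smul_apply, smul_eq_mul, map_mul]
        rfl })

end Fermat.Agent.GE6.MinRT
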