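import Fermat.Agent.GE6.Level
import Fermat.Agent.GE6.MinRT
import Fermat.Agent.GE.Graph.RTStmt

/-!
# GATE-E / E6 ASSEMBLY-MIN in hypothesis form (helper12)

`(∀ n, TWDepth 𝒪 ℓ r R M n)` (Taylor–Wiles data of every depth for the pair `(R, M)`,
`GE6/Level`) `⟹` a Prelude `PatchingDatum` `⟹` (`GE6/MinRT`, S57, E1) `R → T` bijective, `M` free,
`R = Λ/(φ X_i)`; and, for `R = D.R` a universal deformation ring with the Hecke side
`(N, S, T, π, ρ_T)`, **an `RTData`** (`GE/Graph/RTStmt`), the output shape of the engine at `Σ = ∅`.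
-/

set_option autoImplicit false

namespace Fermat.Agent.GE6.Assembly

open IsLocalRing Polynomial CuspForm Fermat.Agent.GE6.Level Fermat.Agent.GE.Graph

/-- `G_ℚ`. -/
local notation "GQ" => (AlgebraicClosure ℚ ≃ₐ[ℚ] AlgebraicClosure ℚ)

section Abstract

variable {𝒪 : Type} [CommRing 𝒪] [IsDomain 𝒪] [IsDiscreteValuationRing 𝒪]
  [IsAdicComplete (maximalIdeal 𝒪) 𝒪] [Finite (ResidueField 𝒪)] {ℓ r : ℕ}
  {R : Type} [CommRing R] [IsLocalRing R] [IsNoetherianRing R]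
  [IsAdicComplete (maximalIdeal R) R] [Algebra 𝒪 R] [IsLocalHom (algebraMap 𝒪 R)]
  {T : Type} [CommRing T] [Algebra 𝒪 T]
  {M : Type} [AddCommGroup M] [Module R M] [Module T M] [Nontrivial M]

/-- **E6, ring-theoretic form**: Taylor–Wiles data of every depth force `R ≅ T`, `M` free over
`R`, and a complete-intersection presentation of `R`. -/
theorem bijective_of_twDepth (hℓ : ℓ.Prime) (hℓ𝒪 : (ℓ : 𝒪) ∈ maximalIdeal 𝒪)
    (hres : Function.Surjective (residue R ∘ algebraMap 𝒪 R))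
    (φ : R →ₐ[𝒪] T) (hφ : Function.Surjective φ)
    (hcompat : ∀ (x : R) (m : M), x • m = φ x • m)
    (L : ∀ n, TWDepth 𝒪 ℓ r R M n) :
    Function.Bijective φ ∧ Module.Free R M ∧
      ∃ L' : Algebra.PatchingLevel 𝒪 r R M ⊥,
        RingHom.ker L'.ψ = Ideal.span (Set.range fun i : Fin r => L'.φ (MvPowerSeries.X i)) := by
  obtain ⟨D⟩ := nonempty_patchingDatum hℓ hℓ𝒪 L
  exact Fermat.Agent.GE6.MinRT.bijective_of_patchingDatum hℓ𝒪 hres φ hφ hcompat D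

/-- `M` is free over `T` as well. -/
theorem free_of_twDepth (hℓ : ℓ.Prime) (hℓ𝒪 : (ℓ : 𝒪) ∈ maximalIdeal 𝒪)
    (hres : Function.Surjective (residue R ∘ algebraMap 𝒪 R))
    (φ : R →ₐ[𝒪] T) (hφ : Function.Surjective φ)
    (hcompat : ∀ (x : R) (m : M), x • m = φ x • m)
    (L : ∀ n, TWDepth 𝒪 ℓ r R M n) : Module.Free T M := by
  obtain ⟨D⟩ := nonempty_patchingDatum hℓ hℓ𝒪 L
  exact Fermat.Agent.GE6.MinRT.free_of_patchingDatum hℓ𝒪 hres φ hφ hcompat D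

end Abstract

section RT

variable {𝒪 : Type} [CommRing 𝒪] [IsDomain 𝒪] [IsDiscreteValuationRing 𝒪]
  [IsAdicComplete (maximalIdeal 𝒪) 𝒪] [Finite (ResidueField 𝒪)] {ℓ r : ℕ}
  {ρbar : ResidualGaloisRep (ResidueField 𝒪)} {𝒟 : DefCondE 𝒪}

/-- **E6 ASSEMBLY-MIN, engine form**: a universal deformation ring `D`, a Hecke side
`(N, S, T, π, ρ_T)` with a surjection `φ : D.R ↠ T` carrying `ρ^univ` to `ρ_T` (frozen S54), a
nonzero `T`-module `M` and Taylor–Wiles data of every depth for `(D.R, M)` give an `R = T`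
datum. -/
theorem exists_rtData_of_twDepth (hℓ : ℓ.Prime) (hℓ𝒪 : (ℓ : 𝒪) ∈ maximalIdeal 𝒪)
    (D : GaloisRep.DeformationRingData 𝒪 ρbar 𝒟)
    {N : ℕ} [NeZero N] {S : Set ℕ} {T : Type} [CommRing T] [IsLocalRing T] [Algebra 𝒪 T]
    (π : heckeAlgebra N 2 S →+* T) (ρT : GaloisRepAdic T)
    (hcp : ∀ (q : ℕ) (hq : q.Prime) (hqN : ¬ q ∣ N) (hqS : q ∉ S),
      ∀ A : ValuationSubring (AlgebraicClosure ℚ), A.LiesOverPrime q →
        ∀ σ : GQ, A.IsFrobeniusAt σ q →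
          LinearMap.charpoly (ρT.ρ σ) =
            X ^ 2 - C (π (heckeAlgebra.T hq hqN hqS)) * X + C ((q : T)))
    (φ : D.R →ₐ[𝒪] T) (hφ : Function.Surjective φ) (φ_local : IsLocalHom (φ : D.R →+* T))
    (φ_ρ : (D.ρ.baseChangeAlong (φ : D.R →+* T) φ_local).IsEquiv ρT)
    {M : Type} [AddCommGroup M] [Module D.R M] [Module T M] [Nontrivial M]
    (hcompat : ∀ (x : D.R) (m : M), x • m = φ x • m)
    (L : ∀ n, TWDepth 𝒪 ℓ r D.R M n) :
    ∃ X' : RTData ρbar 𝒟, X'.N = N ∧ X'.S = S ∧ X'.D = D := by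
  obtain ⟨hbij, -, -⟩ := bijective_of_twDepth hℓ hℓ𝒪 D.residue_surjective φ hφ hcompat L
  exact ⟨{ N := N, S := S, T := T, π := π, ρT := ρT, charpoly_frob := hcp, D := D, φ := φ,
           φ_bijective := hbij, φ_local := φ_local, φ_ρ := φ_ρ }, rfl, rfl, rfl⟩

end RT

end Fermat.Agent.GE6.Assembly
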