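/-
GATE-E / ENGINE (helper59): **transport of a universal deformation ring along a change of the
deformation condition that is invisible on lifts of `ρbar`**.

If two deformation conditions `𝒟`, `𝒟'` agree on every lift of `ρbar` to a complete noetherian local
`𝒪`-algebra with residue field `k` (the test objects of `DeformationRingData.universal`), then a
universal deformation ring for `𝒟` IS one for `𝒟'` — same ring `R`, same universal representation
(`congr_R`, `congr_ρ` hold by `rfl`).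

Intended use (RISK-5, RULING A12 / helper86 7567 fix (A)): the auxiliary prime `r` of the `p = 3`
engine sits in the level, so the Galois package only delivers `cond 𝒪 p Smin (insert r Σ)`; the local
lemma (U') says every lift of `ρbar` of that type is unramified at `r`, i.e.
`cond … (insert r Σ) ρ ↔ cond … Σ ρ` on lifts.  Then `congr D h : DeformationRingData 𝒪 ρbar 𝒟'`
with `(congr D h).R = D.R`, so every landed consumer stated for `𝒟'` (G3 `exists_psi_flat`, RawFL,
RTData …) applies to the ring of `𝒟` without any twin.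

Prelude-only.
-/
import Fermat.Prelude.Def_GaloisRep_DeformationRingData

set_option autoImplicit false
set_option linter.unusedSectionVars false

open IsLocalRing

namespace Fermat.Agent.GE6.DefRingCongr

variable {𝒪 : Type} [CommRing 𝒪] [IsDomain 𝒪] [IsDiscreteValuationRing 𝒪]
  [IsAdicComplete (maximalIdeal 𝒪) 𝒪]
  {ρbar : ResidualGaloisRep (ResidueField 𝒪)}
  {𝒟 𝒟' : ∀ ⦃A : Type⦄ [CommRing A] [IsLocalRing A] [Algebra 𝒪 A], GaloisRepAdic A → Prop}

/-- "`𝒟` and `𝒟'` agree on lifts of `ρbar`": on every test object of `DeformationRingData.universal`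
(complete noetherian local `𝒪`-algebra with residue field `k`) and every representation lifting
`ρbar`. -/
def AgreeOnLifts (ρbar : ResidualGaloisRep (ResidueField 𝒪))
    (𝒟 𝒟' : ∀ ⦃A : Type⦄ [CommRing A] [IsLocalRing A] [Algebra 𝒪 A], GaloisRepAdic A → Prop) :
    Prop :=
  ∀ (A : Type) [CommRing A] [IsLocalRing A] [IsNoetherianRing A]
    [IsAdicComplete (maximalIdeal A) A] [Algebra 𝒪 A] [IsLocalHom (algebraMap 𝒪 A)],
    Function.Surjective (residue A ∘ algebraMap 𝒪 A) →
    ∀ ρA : GaloisRepAdic A,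
      ρA.residual.IsEquiv (ρbar.baseChangeAlong (ResidueField.map (algebraMap 𝒪 A))) →
      (𝒟 ρA ↔ 𝒟' ρA)

theorem AgreeOnLifts.refl (ρbar : ResidualGaloisRep (ResidueField 𝒪))
    (𝒟 : ∀ ⦃A : Type⦄ [CommRing A] [IsLocalRing A] [Algebra 𝒪 A], GaloisRepAdic A → Prop) :
    AgreeOnLifts ρbar 𝒟 𝒟 :=
  fun _ _ _ _ _ _ _ _ _ _ => Iff.rfl

theorem AgreeOnLifts.symm (h : AgreeOnLifts ρbar 𝒟 𝒟') : AgreeOnLifts ρbar 𝒟' 𝒟 :=
  fun A _ _ _ _ _ _ hs ρA hρA => (h A hs ρA hρA).symm

theorem AgreeOnLifts.trans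
    {𝒟'' : ∀ ⦃A : Type⦄ [CommRing A] [IsLocalRing A] [Algebra 𝒪 A], GaloisRepAdic A → Prop}
    (h : AgreeOnLifts ρbar 𝒟 𝒟') (h' : AgreeOnLifts ρbar 𝒟' 𝒟'') : AgreeOnLifts ρbar 𝒟 𝒟'' :=
  fun A _ _ _ _ _ _ hs ρA hρA => (h A hs ρA hρA).trans (h' A hs ρA hρA)

/-- The usual way to get `AgreeOnLifts`: `𝒟' → 𝒟` always (e.g. `𝒟'` = `𝒟` ∧ "unramified at `r`",
monotonicity in the ramification set), and `𝒟 → 𝒟'` on lifts of `ρbar` (the local lemma). -/
theorem agreeOnLifts_of_imp
    (hmono : ∀ ⦃A : Type⦄ [CommRing A] [IsLocalRing A] [Algebra 𝒪 A] (ρA : GaloisRepAdic A),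
      𝒟' ρA → 𝒟 ρA)
    (hlift : ∀ (A : Type) [CommRing A] [IsLocalRing A] [IsNoetherianRing A]
      [IsAdicComplete (maximalIdeal A) A] [Algebra 𝒪 A] [IsLocalHom (algebraMap 𝒪 A)],
      Function.Surjective (residue A ∘ algebraMap 𝒪 A) →
      ∀ ρA : GaloisRepAdic A,
        ρA.residual.IsEquiv (ρbar.baseChangeAlong (ResidueField.map (algebraMap 𝒪 A))) →
        𝒟 ρA → 𝒟' ρA) :
    AgreeOnLifts ρbar 𝒟 𝒟' :=
  fun A _ _ _ _ _ _ hs ρA hρA => ⟨hlift A hs ρA hρA, fun h => hmono ρA h⟩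

/-- **Transport**: a universal deformation ring of type `𝒟` is one of type `𝒟'` when the two
conditions agree on lifts of `ρbar`.  Same ring, same universal representation. -/
def congr (D : GaloisRep.DeformationRingData 𝒪 ρbar 𝒟) (h : AgreeOnLifts ρbar 𝒟 𝒟') :
    GaloisRep.DeformationRingData 𝒪 ρbar 𝒟' where
  R := D.R
  residue_surjective := D.residue_surjective
  absIrr := D.absIrr
  ρ := D.ρ
  isOfType := (h D.R D.residue_surjective D.ρ D.residual_isEquiv).mp D.isOfType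
  residual_isEquiv := D.residual_isEquiv
  universal := fun A _ _ _ _ _ _ hs ρA hρA hres =>
    D.universal A hs ρA ((h A hs ρA hres).mpr hρA) hres

@[simp] theorem congr_R (D : GaloisRep.DeformationRingData 𝒪 ρbar 𝒟)
    (h : AgreeOnLifts ρbar 𝒟 𝒟') : (congr D h).R = D.R := rfl

@[simp] theorem congr_ρ (D : GaloisRep.DeformationRingData 𝒪 ρbar 𝒟)
    (h : AgreeOnLifts ρbar 𝒟 𝒟') : (congr D h).ρ = D.ρ := rfl

theorem nonempty_congr (h : AgreeOnLifts ρbar 𝒟 𝒟')
    (hD : Nonempty (GaloisRep.DeformationRingData 𝒪 ρbar 𝒟)) :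
    Nonempty (GaloisRep.DeformationRingData 𝒪 ρbar 𝒟') :=
  hD.map fun D => congr D h

theorem nonempty_iff (h : AgreeOnLifts ρbar 𝒟 𝒟') :
    Nonempty (GaloisRep.DeformationRingData 𝒪 ρbar 𝒟) ↔
      Nonempty (GaloisRep.DeformationRingData 𝒪 ρbar 𝒟') :=
  ⟨nonempty_congr h, nonempty_congr h.symm⟩

end Fermat.Agent.GE6.DefRingCongr
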