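/-
GATE-E / ENGINE (helper59): `DefRingCongr` specialised to the engine conditions `condFL` / `condSO`
(`GE/Graph/RTStmt`) — **an auxiliary prime `r` at which every lift of `ρbar` is unramified can be
added to / removed from `Σ` without changing the universal deformation ring**.

* `condFL_insert` / `condSO_insert` : `𝒟_Σ ⊆ 𝒟_{Σ ∪ {r}}` (monotonicity, no hypothesis);
* `condFL_of_insert` / `condSO_of_insert` : `𝒟_{Σ ∪ {r}} ρ ∧ ρ unramified at r ⟹ 𝒟_Σ ρ`;
* `UnramifiedOnLifts ρbar 𝒟 r` : the conclusion of the local lemma (U') of RULING A12, as a Prop: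
  every lift of `ρbar` of type `𝒟` (on the test objects of `universal`) is unramified at `r`;
* `agree_condFL_insert` / `agree_condSO_insert` : `AgreeOnLifts ρbar 𝒟_Σ 𝒟_{Σ ∪ {r}}` from (U');
* `enlargeFL` / `shrinkFL` / `enlargeSO` / `shrinkSO` : the transported `DeformationRingData`
  (same `R`, same `ρ` by `rfl`).
-/
import Fermat.Agent.GE.Graph.RTStmt
import Fermat.Agent.GE6.DefRingCongr

set_option autoImplicit false
set_option linter.unusedSectionVars false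

open IsLocalRing

namespace Fermat.Agent.GE6.DefRingCongr

open Fermat.Agent.GE.Graph

section Pointwise

variable {𝒪 : Type} [CommRing 𝒪] {p : ℕ} {Smin Sig : Finset ℕ} {r : ℕ}
  {A : Type} [CommRing A] [IsLocalRing A] [Algebra 𝒪 A] {ρ : GaloisRepAdic A}

theorem not_mem_union_of_insert {q : ℕ} (hqr : q ≠ r) (hq : q ∉ Smin ∪ Sig) :
    q ∉ Smin ∪ insert r Sig := by
  intro hmem
  rcases Finset.mem_union.mp hmem with h | h
  · exact hq (Finset.mem_union_left _ h)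
  · rcases Finset.mem_insert.mp h with h | h
    · exact hqr h
    · exact hq (Finset.mem_union_right _ h)

theorem not_mem_union_of_not_mem_insert {q : ℕ} (hq : q ∉ Smin ∪ insert r Sig) :
    q ∉ Smin ∪ Sig := fun hmem =>
  hq (Finset.union_subset_union_right (Finset.subset_insert r Sig) hmem)

/-- adding `r` to `Σ` weakens `𝒟^{fl}_Σ`. -/
theorem condFL_insert (h : condFL 𝒪 p Smin Sig ρ) : condFL 𝒪 p Smin (insert r Sig) ρ :=
  ⟨⟨h.1.1, h.1.2.1, fun q hq hqT => h.1.2.2 q hq (not_mem_union_of_not_mem_insert hqT)⟩, h.2⟩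

/-- adding `r` to `Σ` weakens `𝒟^{so}_Σ`. -/
theorem condSO_insert (h : condSO 𝒪 p Smin Sig ρ) : condSO 𝒪 p Smin (insert r Sig) ρ :=
  ⟨⟨h.1.1, h.1.2.1, fun q hq hqT => h.1.2.2 q hq (not_mem_union_of_not_mem_insert hqT)⟩, h.2⟩

/-- `𝒟^{fl}_{Σ ∪ {r}}` + unramified at `r` is `𝒟^{fl}_Σ`. -/
theorem condFL_of_insert (h : condFL 𝒪 p Smin (insert r Sig) ρ) (hu : ρ.IsUnramifiedAt r) :
    condFL 𝒪 p Smin Sig ρ :=
  ⟨⟨h.1.1, h.1.2.1, fun q hq hqT => by
    by_cases hqr : q = r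
    · rw [hqr]; exact hu
    · exact h.1.2.2 q hq (not_mem_union_of_insert hqr hqT)⟩, h.2⟩

/-- `𝒟^{so}_{Σ ∪ {r}}` + unramified at `r` is `𝒟^{so}_Σ`. -/
theorem condSO_of_insert (h : condSO 𝒪 p Smin (insert r Sig) ρ) (hu : ρ.IsUnramifiedAt r) :
    condSO 𝒪 p Smin Sig ρ :=
  ⟨⟨h.1.1, h.1.2.1, fun q hq hqT => by
    by_cases hqr : q = r
    · rw [hqr]; exact hu
    · exact h.1.2.2 q hq (not_mem_union_of_insert hqr hqT)⟩, h.2⟩

end Pointwise

section Transport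

variable {𝒪 : Type} [CommRing 𝒪] [IsDomain 𝒪] [IsDiscreteValuationRing 𝒪]
  [IsAdicComplete (maximalIdeal 𝒪) 𝒪]
  {ρbar : ResidualGaloisRep (ResidueField 𝒪)} {p : ℕ} {Smin Sig : Finset ℕ} {r : ℕ}

/-- The conclusion of the local lemma (U') as a Prop: every lift of `ρbar` of type `𝒟` to a test
object of `DeformationRingData.universal` is unramified at `r`. -/
def UnramifiedOnLifts (ρbar : ResidualGaloisRep (ResidueField 𝒪)) (𝒟 : DefCondE 𝒪) (r : ℕ) :
    Prop :=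
  ∀ (A : Type) [CommRing A] [IsLocalRing A] [IsNoetherianRing A]
    [IsAdicComplete (maximalIdeal A) A] [Algebra 𝒪 A] [IsLocalHom (algebraMap 𝒪 A)],
    Function.Surjective (residue A ∘ algebraMap 𝒪 A) →
    ∀ ρA : GaloisRepAdic A,
      ρA.residual.IsEquiv (ρbar.baseChangeAlong (ResidueField.map (algebraMap 𝒪 A))) →
      𝒟 ρA → ρA.IsUnramifiedAt r

theorem agree_condFL_insert
    (hU : UnramifiedOnLifts ρbar (condFL 𝒪 p Smin (insert r Sig)) r) :
    AgreeOnLifts ρbar (condFL 𝒪 p Smin Sig) (condFL 𝒪 p Smin (insert r Sig)) :=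
  fun A _ _ _ _ _ _ hs ρA hρA =>
    ⟨condFL_insert, fun h => condFL_of_insert h (hU A hs ρA hρA h)⟩

theorem agree_condSO_insert
    (hU : UnramifiedOnLifts ρbar (condSO 𝒪 p Smin (insert r Sig)) r) :
    AgreeOnLifts ρbar (condSO 𝒪 p Smin Sig) (condSO 𝒪 p Smin (insert r Sig)) :=
  fun A _ _ _ _ _ _ hs ρA hρA =>
    ⟨condSO_insert, fun h => condSO_of_insert h (hU A hs ρA hρA h)⟩

/-- `R^{fl}_Σ` is `R^{fl}_{Σ ∪ {r}}` (same ring, same universal representation). -/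
def enlargeFL (D : GaloisRep.DeformationRingData 𝒪 ρbar (condFL 𝒪 p Smin Sig))
    (hU : UnramifiedOnLifts ρbar (condFL 𝒪 p Smin (insert r Sig)) r) :
    GaloisRep.DeformationRingData 𝒪 ρbar (condFL 𝒪 p Smin (insert r Sig)) :=
  congr D (agree_condFL_insert hU)

/-- `R^{fl}_{Σ ∪ {r}}` is `R^{fl}_Σ`. -/
def shrinkFL (D : GaloisRep.DeformationRingData 𝒪 ρbar (condFL 𝒪 p Smin (insert r Sig)))
    (hU : UnramifiedOnLifts ρbar (condFL 𝒪 p Smin (insert r Sig)) r) :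
    GaloisRep.DeformationRingData 𝒪 ρbar (condFL 𝒪 p Smin Sig) :=
  congr D (agree_condFL_insert hU).symm

/-- `R^{so}_Σ` is `R^{so}_{Σ ∪ {r}}`. -/
def enlargeSO (D : GaloisRep.DeformationRingData 𝒪 ρbar (condSO 𝒪 p Smin Sig))
    (hU : UnramifiedOnLifts ρbar (condSO 𝒪 p Smin (insert r Sig)) r) :
    GaloisRep.DeformationRingData 𝒪 ρbar (condSO 𝒪 p Smin (insert r Sig)) :=
  congr D (agree_condSO_insert hU)

/-- `R^{so}_{Σ ∪ {r}}` is `R^{so}_Σ`. -/
def shrinkSO (D : GaloisRep.DeformationRingData 𝒪 ρbar (condSO 𝒪 p Smin (insert r Sig)))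
    (hU : UnramifiedOnLifts ρbar (condSO 𝒪 p Smin (insert r Sig)) r) :
    GaloisRep.DeformationRingData 𝒪 ρbar (condSO 𝒪 p Smin Sig) :=
  congr D (agree_condSO_insert hU).symm

@[simp] theorem enlargeFL_R (D : GaloisRep.DeformationRingData 𝒪 ρbar (condFL 𝒪 p Smin Sig))
    (hU : UnramifiedOnLifts ρbar (condFL 𝒪 p Smin (insert r Sig)) r) :
    (enlargeFL D hU).R = D.R := rfl

@[simp] theorem shrinkFL_R
    (D : GaloisRep.DeformationRingData 𝒪 ρbar (condFL 𝒪 p Smin (insert r Sig)))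
    (hU : UnramifiedOnLifts ρbar (condFL 𝒪 p Smin (insert r Sig)) r) :
    (shrinkFL D hU).R = D.R := rfl

@[simp] theorem enlargeSO_R (D : GaloisRep.DeformationRingData 𝒪 ρbar (condSO 𝒪 p Smin Sig))
    (hU : UnramifiedOnLifts ρbar (condSO 𝒪 p Smin (insert r Sig)) r) :
    (enlargeSO D hU).R = D.R := rfl

@[simp] theorem shrinkSO_R
    (D : GaloisRep.DeformationRingData 𝒪 ρbar (condSO 𝒪 p Smin (insert r Sig)))
    (hU : UnramifiedOnLifts ρbar (condSO 𝒪 p Smin (insert r Sig)) r) :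
    (shrinkSO D hU).R = D.R := rfl

/-- **RTData transport**: an `R = T` datum for `𝒟_{Σ ∪ {r}}` is one for `𝒟_Σ` (and conversely) as soon
as the two conditions agree on lifts — every field is reused verbatim. -/
def rtDataCongr {𝒟 𝒟' : DefCondE 𝒪} (X : RTData ρbar 𝒟) (h : AgreeOnLifts ρbar 𝒟 𝒟') :
    RTData ρbar 𝒟' where
  N := X.N
  S := X.S
  T := X.T
  π := X.π
  ρT := X.ρT
  charpoly_frob := X.charpoly_frob
  D := congr X.D h
  φ := X.φ
  φ_bijective := X.φ_bijective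
  φ_local := X.φ_local
  φ_ρ := X.φ_ρ

@[simp] theorem rtDataCongr_N {𝒟 𝒟' : DefCondE 𝒪} (X : RTData ρbar 𝒟)
    (h : AgreeOnLifts ρbar 𝒟 𝒟') : (rtDataCongr X h).N = X.N := rfl

@[simp] theorem rtDataCongr_S {𝒟 𝒟' : DefCondE 𝒪} (X : RTData ρbar 𝒟)
    (h : AgreeOnLifts ρbar 𝒟 𝒟') : (rtDataCongr X h).S = X.S := rfl

end Transport

end Fermat.Agent.GE6.DefRingCongr
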