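import Fermat.Agent.GE6.LevelDiv
import Fermat.Agent.S53.PSComplete
import Fermat.Prelude.Def_Algebra_PatchingDatum

/-!
# GATE-E / E6-LEVEL, part 2 (helper12): an abstract Taylor–Wiles datum of depth `n` gives a Prelude
`Algebra.PatchingLevel` at `J_n = ((1 + X_j)^(ℓ^n) − 1)_j`

`TWDepth 𝒪 ℓ r R M n` packages what the Taylor–Wiles construction produces at ONE set `Q_n` of
`r` auxiliary primes `q ≡ 1 (mod ℓ^n)`:

* the ring `RQ` (`= R_{Q_n}`), topologically generated by `r` elements: `γ : Λ ↠ RQ`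
  (`Λ = 𝒪⟦X₁..X_r⟧`, S56);
* the diamond elements `g j : RQ` (images of generators of `Δ_{Q_n} = (ℤ/ℓ^n)^r`), each `g j − 1`
  having a lift to `𝔪_Λ` (automatic when `RQ` is local and `g j ≡ 1 mod 𝔪`: `TWDepth.g_lift_of_mem`);
* `β : RQ ↠ R` with kernel the augmentation ideal `(g j − 1)_j` (E2);
* the module `MQ` over `RQ`, free of rank `d` over `𝒪[Δ_{Q_n}]` for the action through the `g j`
  (in basis form: `g j ^ (ℓ^n)` acts trivially, and the monomials `∏ j, g j ^ (a j) • e i`,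
  `a j < ℓ^n`, are `𝒪`-linearly independent and span `MQ`);
* `π : MQ ↠ M`, semilinear over `β`, with kernel `(g j − 1)_j MQ`.

`TWDepth.nonempty_patchingLevel` : such a datum gives `Algebra.PatchingLevel 𝒪 r R M J_n`
(`N := MQ` as a `Λ`-module through `γ`, `ψ := β ∘ γ`, `φ : X_j ↦` the chosen lift of `g j − 1`).
`nonempty_patchingDatum` : one datum for every `n` gives a Prelude `Algebra.PatchingDatum`.
-/

set_option autoImplicit false
set_option linter.unusedSectionVars false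
set_option linter.style.haveILetI false

namespace Fermat.Agent.GE6.Level

open IsLocalRing MvPowerSeries

/-- **An abstract Taylor–Wiles datum of depth `n`.** -/
structure TWDepth (𝒪 : Type) [CommRing 𝒪] (ℓ r : ℕ) (R : Type) [CommRing R] [Algebra 𝒪 R]
    (M : Type) [AddCommGroup M] [Module R M] (n : ℕ) : Type 1 where
  /-- the ring `R_Q` -/
  RQ : Type
  [instCommRing : CommRing RQ]
  [instAlgebra : Algebra 𝒪 RQ]
  /-- `R_Q` is topologically generated by `r` elements -/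
  γ : MvPowerSeries (Fin r) 𝒪 →ₐ[𝒪] RQ
  γ_surjective : Function.Surjective γ
  /-- the diamond elements -/
  g : Fin r → RQ
  g_lift : ∀ j, ∃ y : MvPowerSeries (Fin r) 𝒪, ¬ IsUnit (constantCoeff y) ∧ γ y = g j - 1
  /-- `R_Q → R_∅` -/
  β : RQ →ₐ[𝒪] R
  β_surjective : Function.Surjective β
  ker_β : RingHom.ker β = Ideal.span (Set.range fun j => g j - 1)
  /-- the module `M_Q` -/
  MQ : Type
  [instAddCommGroup : AddCommGroup MQ]
  [instModule : Module RQ MQ]
  /-- `M_Q → M_∅` -/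
  π : MQ →+ M
  π_smul : ∀ (x : RQ) (m : MQ), π (x • m) = β x • π m
  π_surjective : Function.Surjective π
  ker_π : ∀ m : MQ, π m = 0 ↔
    m ∈ (Ideal.span (Set.range fun j => g j - 1)) • (⊤ : Submodule RQ MQ)
  /-- the rank over `𝒪[Δ_Q]` -/
  d : ℕ
  /-- an `𝒪[Δ_Q]`-basis -/
  e : Fin d → MQ
  g_pow : ∀ (j : Fin r) (m : MQ), g j ^ (ℓ ^ n) • m = m
  span : ∀ m : MQ, ∃ c : (Fin r → Fin (ℓ ^ n)) → Fin d → 𝒪,
    m = ∑ a, ∑ i, (algebraMap 𝒪 RQ (c a i) * ∏ j, g j ^ (a j : ℕ)) • e i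
  indep : ∀ c : (Fin r → Fin (ℓ ^ n)) → Fin d → 𝒪,
    (∑ a, ∑ i, (algebraMap 𝒪 RQ (c a i) * ∏ j, g j ^ (a j : ℕ)) • e i) = 0 → ∀ a i, c a i = 0

attribute [instance] TWDepth.instCommRing TWDepth.instAlgebra TWDepth.instAddCommGroup
  TWDepth.instModule

section General

/-- extension of scalars of `I • ⊤` along a surjection, elementwise -/
theorem mem_smul_top_compHom {A B N : Type*} [CommRing A] [CommRing B] [AddCommGroup N]
    [Module B N] (γ : A →+* B) (hγ : Function.Surjective γ) (I : Ideal A) (x : N) :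
    x ∈ (letI : Module A N := Module.compHom N γ; (I • (⊤ : Submodule A N))) ↔
      x ∈ (I.map γ) • (⊤ : Submodule B N) := by
  letI : Module A N := Module.compHom N γ
  constructor
  · intro hx
    refine Submodule.smul_induction_on hx (fun a ha m _ => ?_) (fun y z hy hz => ?_)
    · exact Submodule.smul_mem_smul (Ideal.mem_map_of_mem γ ha) Submodule.mem_top
    · exact Submodule.add_mem _ hy hz
  · intro hx
    refine Submodule.smul_induction_on hx (fun b hb m _ => ?_) (fun y z hy hz => ?_)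
    · obtain ⟨a, ha, rfl⟩ := (Ideal.mem_map_iff_of_surjective γ hγ).mp hb
      exact Submodule.smul_mem_smul (N := (⊤ : Submodule A N)) ha Submodule.mem_top
    · exact Submodule.add_mem _ hy hz

end General

section Build

variable {𝒪 : Type} [CommRing 𝒪] {ℓ r : ℕ} {R : Type} [CommRing R] [Algebra 𝒪 R]
  {M : Type} [AddCommGroup M] [Module R M] {n : ℕ}

/-- the module `M_Q`, as a module over `Λ` through `γ` -/
def TWDepth.N (T : TWDepth 𝒪 ℓ r R M n) : Type := T.MQ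

instance (T : TWDepth 𝒪 ℓ r R M n) : AddCommGroup T.N := T.instAddCommGroup

noncomputable instance (T : TWDepth 𝒪 ℓ r R M n) : Module (MvPowerSeries (Fin r) 𝒪) T.N :=
  Module.compHom T.MQ (T.γ : MvPowerSeries (Fin r) 𝒪 →+* T.RQ)

/-- the identity `N → M_Q` -/
def TWDepth.toMQ (T : TWDepth 𝒪 ℓ r R M n) (x : T.N) : T.MQ := x

/-- the identity `M_Q → N` -/
def TWDepth.ofMQ (T : TWDepth 𝒪 ℓ r R M n) (x : T.MQ) : T.N := x

theorem TWDepth.smul_def (T : TWDepth 𝒪 ℓ r R M n) (f : MvPowerSeries (Fin r) 𝒪) (x : T.N) :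
    f • x = T.ofMQ (T.γ f • T.toMQ x) := rfl

/-- `π` on `N` -/
def TWDepth.πN (T : TWDepth 𝒪 ℓ r R M n) : T.N →+ M := T.π

theorem TWDepth.πN_apply (T : TWDepth 𝒪 ℓ r R M n) (x : T.N) : T.πN x = T.π (T.toMQ x) := rfl

theorem TWDepth.ofMQ_sum (T : TWDepth 𝒪 ℓ r R M n) {ι : Type*} (s : Finset ι) (F : ι → T.MQ) :
    T.ofMQ (∑ i ∈ s, F i) = ∑ i ∈ s, T.ofMQ (F i) := rfl

/-- the diamond elements are `≡ 1` as soon as `R_Q` is local with `g j − 1 ∈ 𝔪`. -/
theorem TWDepth.g_lift_of_mem {RQ : Type} [CommRing RQ] [IsLocalRing RQ] [Algebra 𝒪 RQ]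
    (γ : MvPowerSeries (Fin r) 𝒪 →ₐ[𝒪] RQ) (hγ : Function.Surjective γ) (g : Fin r → RQ)
    (hg : ∀ j, g j - 1 ∈ maximalIdeal RQ) (j : Fin r) :
    ∃ y : MvPowerSeries (Fin r) 𝒪, ¬ IsUnit (constantCoeff y) ∧ γ y = g j - 1 := by
  obtain ⟨y, hy⟩ := hγ (g j - 1)
  refine ⟨y, fun hu => ?_, hy⟩
  have h1 : IsUnit y := MvPowerSeries.isUnit_iff_constantCoeff.mpr hu
  have h2 : IsUnit (γ y) := h1.map γ
  rw [hy] at h2
  exact (mem_nonunits_iff.mp ((mem_maximalIdeal _).mp (hg j))) h2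

end Build

section Main

variable {𝒪 : Type} [CommRing 𝒪] [IsLocalRing 𝒪] [IsNoetherianRing 𝒪]
  [IsAdicComplete (maximalIdeal 𝒪) 𝒪] {ℓ r : ℕ} {R : Type} [CommRing R] [Algebra 𝒪 R]
  {M : Type} [AddCommGroup M] [Module R M] {n : ℕ}

/-- **E6-LEVEL.** An abstract Taylor–Wiles datum of depth `n` gives a patching level at
`J_n = ((1 + X_j)^(ℓ^n) − 1)_j`. -/
theorem TWDepth.nonempty_patchingLevel (hℓ : ℓ.Prime) (hℓ𝒪 : (ℓ : 𝒪) ∈ maximalIdeal 𝒪)
    (T : TWDepth 𝒪 ℓ r R M n) :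
    Nonempty (Algebra.PatchingLevel 𝒪 r R M
      (Ideal.span (Set.range fun j : Fin r =>
        ((1 + MvPowerSeries.X j) ^ (ℓ ^ n) - 1 : MvPowerSeries (Fin r) 𝒪)))) := by
  classical
  -- the substitution `φ`
  choose y hy0 hy using T.g_lift
  have hΛ : IsAdicComplete (maximalIdeal (MvPowerSeries (Fin r) 𝒪)) (MvPowerSeries (Fin r) 𝒪) :=
    Fermat.Agent.S53.isAdicComplete_mvPowerSeries 𝒪 (Fin r)
  have hym : ∀ j, y j ∈ maximalIdeal (MvPowerSeries (Fin r) 𝒪) := by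
    intro j
    rw [mem_maximalIdeal, mem_nonunits_iff, MvPowerSeries.isUnit_iff_constantCoeff]
    exact hy0 j
  obtain ⟨φ, hφ⟩ := Fermat.Agent.S53.exists_algHom_X (𝒪 := 𝒪) (A := MvPowerSeries (Fin r) 𝒪) y hym
  -- `γ ∘ φ` on the monomials
  have hγφ1 : ∀ j, T.γ (φ (1 + X j)) = T.g j := by
    intro j
    rw [map_add, map_one, hφ, map_add, map_one, hy]
    ring
  have hγφmono : ∀ a : Fin r → Fin (ℓ ^ n), T.γ (φ (mono 𝒪 a)) = ∏ j, T.g j ^ (a j : ℕ) := by
    intro a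
    unfold mono
    rw [map_prod, map_prod]
    refine Finset.prod_congr rfl fun j _ => ?_
    rw [map_pow, map_pow, hγφ1]
  -- `J_n` acts trivially through `γ ∘ φ`
  have hJ : ∀ c ∈ Jq 𝒪 r (ℓ ^ n), ∀ m : T.MQ, T.γ (φ c) • m = 0 := by
    intro c hc
    have h1 : Jq 𝒪 r (ℓ ^ n) ≤ Ideal.comap (T.γ.toRingHom.comp φ.toRingHom)
        (Module.annihilator T.RQ T.MQ) := by
      unfold Jq
      rw [Ideal.span_le]
      rintro _ ⟨j, rfl⟩
      show _ ∈ Module.annihilator T.RQ T.MQ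
      rw [Module.mem_annihilator]
      intro m
      have h2 : (T.γ.toRingHom.comp φ.toRingHom)
          ((1 + X j) ^ (ℓ ^ n) - 1 : MvPowerSeries (Fin r) 𝒪) = T.g j ^ (ℓ ^ n) - 1 := by
        show T.γ (φ ((1 + X j) ^ (ℓ ^ n) - 1)) = _
        rw [map_sub, map_sub, map_pow, map_pow, hγφ1, map_one, map_one]
      rw [h2, sub_smul, T.g_pow, one_smul, sub_self]
    intro m
    exact Module.mem_annihilator.mp (h1 hc) m
  refine ⟨{
    N := T.N
    φ := φ
    ψ := T.β.comp T.γ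
    ψ_surjective := T.β_surjective.comp T.γ_surjective
    ψ_φ_X := ?_
    π := T.πN
    π_smul := ?_
    π_surjective := T.π_surjective
    ker_π := ?_
    d := T.d
    b := fun i => T.ofMQ (T.e i)
    b_span := ?_
    b_rel := ?_ }⟩
  · -- ψ_φ_X
    intro i
    show T.β (T.γ (φ (X i))) = 0
    rw [hφ, hy, ← RingHom.mem_ker, T.ker_β]
    exact Ideal.subset_span ⟨i, rfl⟩
  · -- π_smul
    intro f x
    exact T.π_smul (T.γ f) x
  · -- ker_π
    intro x
    rw [T.πN_apply, T.ker_π]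
    have h1 := mem_smul_top_compHom (N := T.MQ) (T.γ : MvPowerSeries (Fin r) 𝒪 →+* T.RQ)
      T.γ_surjective (Ideal.span (Set.range fun i : Fin r => φ (X i))) x
    have h2 : (Ideal.span (Set.range fun i : Fin r => φ (X i))).map
        (T.γ : MvPowerSeries (Fin r) 𝒪 →+* T.RQ) =
        Ideal.span (Set.range fun j => T.g j - 1) := by
      rw [Ideal.map_span, ← Set.range_comp]
      congr 2
      funext j
      show T.γ (φ (X j)) = _
      rw [hφ, hy]
    rw [h2] at h1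
    exact h1.symm
  · -- b_span
    intro x
    obtain ⟨c, hc⟩ := T.span (T.toMQ x)
    refine ⟨fun i => ∑ a, C (c a i) * mono 𝒪 a, ?_⟩
    have h1 : ∀ i, φ (∑ a, C (c a i) * mono 𝒪 a) • T.ofMQ (T.e i) =
        T.ofMQ (∑ a, (algebraMap 𝒪 T.RQ (c a i) * ∏ j, T.g j ^ (a j : ℕ)) • T.e i) := by
      intro i
      rw [T.smul_def]
      congr 1
      rw [map_sum, map_sum, Finset.sum_smul]
      refine Finset.sum_congr rfl fun a _ => ?_
      rw [map_mul, map_mul, hγφmono]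
      congr 2
      have h2 : (C (c a i) : MvPowerSeries (Fin r) 𝒪) = algebraMap 𝒪 _ (c a i) := rfl
      rw [h2, AlgHom.commutes, AlgHom.commutes]
    simp_rw [h1]
    rw [← T.ofMQ_sum, Finset.sum_comm]
    exact hc
  · -- b_rel
    intro c
    have key : ∀ c' : Fin T.d → MvPowerSeries (Fin r) 𝒪,
        (∑ i, φ (c' i) • T.ofMQ (T.e i)) = T.ofMQ (∑ i, T.γ (φ (c' i)) • T.e i) := by
      intro c'
      rfl
    constructor
    · intro h i
      -- divide
      have hdiv : ∀ i, ∃ p : (Fin r → Fin (ℓ ^ n)) → 𝒪,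
          c i - ∑ a, C (p a) * mono 𝒪 a ∈ Jq 𝒪 r (ℓ ^ n) :=
        fun i => exists_sub_sum_mem hℓ hℓ𝒪 n (c i)
      choose p hp using hdiv
      have h1 : ∀ i, T.γ (φ (c i)) • T.e i =
          ∑ a, (algebraMap 𝒪 T.RQ (p i a) * ∏ j, T.g j ^ (a j : ℕ)) • T.e i := by
        intro i
        have h2 := hJ _ (hp i) (T.e i)
        rw [map_sub, map_sub, sub_smul, sub_eq_zero] at h2
        rw [h2, map_sum, map_sum, Finset.sum_smul]
        refine Finset.sum_congr rfl fun a _ => ?_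
        rw [map_mul, map_mul, hγφmono]
        congr 2
        have h3 : (C (p i a) : MvPowerSeries (Fin r) 𝒪) = algebraMap 𝒪 _ (p i a) := rfl
        rw [h3, AlgHom.commutes, AlgHom.commutes]
      have h4 : (∑ a, ∑ i, (algebraMap 𝒪 T.RQ (p i a) * ∏ j, T.g j ^ (a j : ℕ)) • T.e i) = 0 := by
        rw [Finset.sum_comm]
        simp_rw [← h1]
        rw [key] at h
        exact h
      have h5 := T.indep (fun a i => p i a) h4
      have h6 : ∑ a, C (p i a) * mono 𝒪 a = 0 := by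
        refine Finset.sum_eq_zero fun a _ => ?_
        rw [h5 a i, map_zero, zero_mul]
      have h7 := hp i
      rw [h6, sub_zero] at h7
      exact h7
    · intro h
      rw [key]
      have : (∑ i, T.γ (φ (c i)) • T.e i) = 0 :=
        Finset.sum_eq_zero fun i _ => hJ _ (h i) (T.e i)
      rw [this]
      rfl

/-- **E6-LEVEL, all depths.** -/
theorem nonempty_patchingDatum (hℓ : ℓ.Prime) (hℓ𝒪 : (ℓ : 𝒪) ∈ maximalIdeal 𝒪)
    (T : ∀ n, TWDepth 𝒪 ℓ r R M n) : Nonempty (Algebra.PatchingDatum 𝒪 ℓ r R M) :=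
  ⟨⟨fun n => (TWDepth.nonempty_patchingLevel hℓ hℓ𝒪 (T n)).some⟩⟩

end Main

end Fermat.Agent.GE6.Level
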