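import Mathlib
import Fermat.Agent.S53.PSEval
import Fermat.Agent.GJ.Tate.AdicFree

/-!
# GATE-E / E6-LEVEL, part 1 (helper12): `𝒪⟦X₁..X_r⟧ / ((1+X_j)^(ℓ^n) − 1) = 𝒪[(ℤ/ℓ^n)^r]`, generation

`𝒪` a complete noetherian local ring, `ℓ` a prime with `(ℓ : 𝒪) ∈ 𝔪_𝒪`, `q = ℓ ^ n`,
`Λ = MvPowerSeries (Fin r) 𝒪`, `Jq = span {(1 + X j) ^ q − 1}`.

* `exists_sub_sum_mem` : every `f : Λ` is congruent modulo `Jq` to an `𝒪`-linear combination of the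
  finitely many monomials `mono a = ∏ j, (1 + X j) ^ (a j)`, `a : Fin r → Fin q`.

Proof: the quotient `Q = Λ ⧸ Jq` is separated for the `𝔪_𝒪`-adic topology (Krull, `Λ` noetherian
local), the `𝒪`-span `P` of the monomials contains the image of the polynomial ring, the variables
are nilpotent modulo `ℓ`, hence `Q = P + ℓ Q`; successive approximation
(`surjective_of_mkQ_comp_surjective`) concludes.
-/

set_option autoImplicit false
set_option linter.unusedSectionVars false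

namespace Fermat.Agent.GE6.Level

open IsLocalRing MvPowerSeries

/-- the ideal `((1 + X_j)^q − 1)_j` of `𝒪⟦X₁..X_r⟧` -/
noncomputable def Jq (𝒪 : Type) [CommRing 𝒪] (r q : ℕ) : Ideal (MvPowerSeries (Fin r) 𝒪) :=
  Ideal.span (Set.range fun j : Fin r => ((1 + X j) ^ q - 1 : MvPowerSeries (Fin r) 𝒪))

/-- the monomials `∏ j, (1 + X_j)^(a j)` -/
noncomputable def mono (𝒪 : Type) [CommRing 𝒪] {r q : ℕ} (a : Fin r → Fin q) :
    MvPowerSeries (Fin r) 𝒪 :=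
  ∏ j, (1 + X j) ^ (a j : ℕ)

section Quot

variable {𝒪 : Type} [CommRing 𝒪] {r q : ℕ}

/-- the class of `1 + X_j` in the quotient -/
noncomputable def uQ (𝒪 : Type) [CommRing 𝒪] (r q : ℕ) (j : Fin r) :
    MvPowerSeries (Fin r) 𝒪 ⧸ Jq 𝒪 r q :=
  Ideal.Quotient.mk _ (1 + X j)

theorem uQ_pow (j : Fin r) : uQ 𝒪 r q j ^ q = 1 := by
  unfold uQ
  rw [← map_pow, ← sub_eq_zero, ← map_one (Ideal.Quotient.mk (Jq 𝒪 r q)), ← map_sub,
    Ideal.Quotient.eq_zero_iff_mem]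
  exact Ideal.subset_span ⟨j, rfl⟩

theorem mk_mono (a : Fin r → Fin q) :
    Ideal.Quotient.mk (Jq 𝒪 r q) (mono 𝒪 a) = ∏ j, uQ 𝒪 r q j ^ (a j : ℕ) := by
  unfold mono uQ
  rw [map_prod]
  simp only [map_pow]

/-- the multiplicative monoid of monomial classes -/
noncomputable def monoSub (𝒪 : Type) [CommRing 𝒪] (r q : ℕ) [NeZero q] :
    Submonoid (MvPowerSeries (Fin r) 𝒪 ⧸ Jq 𝒪 r q) where
  carrier := {y | ∃ a : Fin r → Fin q, y = ∏ j, uQ 𝒪 r q j ^ (a j : ℕ)}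
  one_mem' := ⟨fun _ => 0, by simp⟩
  mul_mem' := by
    rintro _ _ ⟨a, rfl⟩ ⟨b, rfl⟩
    refine ⟨a + b, ?_⟩
    rw [← Finset.prod_mul_distrib]
    refine Finset.prod_congr rfl fun j _ => ?_
    rw [← pow_add, pow_eq_pow_mod _ (uQ_pow j), Pi.add_apply, Fin.val_add]

theorem uQ_mem_monoSub [NeZero q] (j : Fin r) : uQ 𝒪 r q j ∈ monoSub 𝒪 r q := by
  classical
  refine ⟨Pi.single j 1, ?_⟩
  rw [Finset.prod_eq_single j]
  · rw [Pi.single_eq_same, Fin.val_one', ← pow_eq_pow_mod _ (uQ_pow j), pow_one]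
  · intro k _ hk
    rw [Pi.single_eq_of_ne hk, Fin.val_zero, pow_zero]
  · intro h
    exact absurd (Finset.mem_univ j) h

/-- the image of the polynomial ring lies in the span of the monomial classes -/
theorem adjoin_le_span [NeZero q] :
    Subalgebra.toSubmodule (Algebra.adjoin 𝒪 (Set.range fun j : Fin r =>
      (Ideal.Quotient.mk (Jq 𝒪 r q) (X j)))) ≤
    Submodule.span 𝒪 (Set.range fun a : Fin r → Fin q =>
      Ideal.Quotient.mk (Jq 𝒪 r q) (mono 𝒪 a)) := by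
  have h1 : Algebra.adjoin 𝒪 (Set.range fun j : Fin r =>
      (Ideal.Quotient.mk (Jq 𝒪 r q) (X j))) ≤ Algebra.adjoin 𝒪 (Set.range (uQ 𝒪 r q)) := by
    refine Algebra.adjoin_le ?_
    rintro _ ⟨j, rfl⟩
    have h2 : Ideal.Quotient.mk (Jq 𝒪 r q) (X j) = uQ 𝒪 r q j - 1 := by
      unfold uQ
      rw [map_add, map_one]
      ring
    show Ideal.Quotient.mk (Jq 𝒪 r q) (X j) ∈ Algebra.adjoin 𝒪 (Set.range (uQ 𝒪 r q))
    rw [h2]
    exact Subalgebra.sub_mem _ (Algebra.subset_adjoin ⟨j, rfl⟩) (Subalgebra.one_mem _)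
  refine le_trans (Subalgebra.toSubmodule.monotone h1) ?_
  rw [Algebra.adjoin_eq_span]
  refine Submodule.span_mono ?_
  have h3 : Submonoid.closure (Set.range (uQ 𝒪 r q)) ≤ monoSub 𝒪 r q := by
    rw [Submonoid.closure_le]
    rintro _ ⟨j, rfl⟩
    exact uQ_mem_monoSub j
  intro y hy
  obtain ⟨a, rfl⟩ := h3 hy
  exact ⟨a, mk_mono a⟩

end Quot

section Main

variable {𝒪 : Type} [CommRing 𝒪] [IsLocalRing 𝒪] [IsNoetherianRing 𝒪]
  [IsAdicComplete (maximalIdeal 𝒪) 𝒪] {r : ℕ} {ℓ : ℕ}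

/-- the variables are nilpotent modulo `ℓ` in the quotient -/
theorem exists_pow_span_X_le (hℓ : ℓ.Prime) (n : ℕ) :
    ∃ t, (Ideal.span (Set.range fun j : Fin r =>
      (Ideal.Quotient.mk (Jq 𝒪 r (ℓ ^ n)) (X j)))) ^ t ≤
      Ideal.span {(ℓ : MvPowerSeries (Fin r) 𝒪 ⧸ Jq 𝒪 r (ℓ ^ n))} := by
  refine Ideal.exists_pow_le_of_le_radical_of_fg ?_ (Submodule.fg_span (Set.finite_range _))
  rw [Ideal.span_le]
  rintro _ ⟨j, rfl⟩
  show _ ∈ Ideal.radical _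
  rw [Ideal.mem_radical_iff]
  refine ⟨ℓ ^ n, ?_⟩
  obtain ⟨v, hv⟩ := exists_add_pow_prime_pow_eq hℓ
    (Ideal.Quotient.mk (Jq 𝒪 r (ℓ ^ n)) (X j)) 1 n
  have h1 : (Ideal.Quotient.mk (Jq 𝒪 r (ℓ ^ n)) (X j) + 1) ^ ℓ ^ n = 1 := by
    have := uQ_pow (𝒪 := 𝒪) (r := r) (q := ℓ ^ n) j
    unfold uQ at this
    rw [map_add, map_one, add_comm] at this
    exact this
  rw [h1, one_pow] at hv
  have h2 : (Ideal.Quotient.mk (Jq 𝒪 r (ℓ ^ n)) (X j)) ^ ℓ ^ n =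
      (ℓ : MvPowerSeries (Fin r) 𝒪 ⧸ Jq 𝒪 r (ℓ ^ n)) *
        (-(Ideal.Quotient.mk (Jq 𝒪 r (ℓ ^ n)) (X j) * 1 * v)) := by
    linear_combination -hv
  rw [h2]
  exact Ideal.mul_mem_right _ _ (Ideal.subset_span rfl)

/-- **Division**: every power series is congruent modulo `((1 + X_j)^(ℓ^n) − 1)_j` to an
`𝒪`-linear combination of the monomials `∏ j, (1 + X_j)^(a j)`, `a j < ℓ^n`. -/
theorem exists_sub_sum_mem (hℓ : ℓ.Prime) (hℓ𝒪 : (ℓ : 𝒪) ∈ maximalIdeal 𝒪) (n : ℕ)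
    (f : MvPowerSeries (Fin r) 𝒪) :
    ∃ p : (Fin r → Fin (ℓ ^ n)) → 𝒪, f - ∑ a, C (p a) * mono 𝒪 a ∈ Jq 𝒪 r (ℓ ^ n) := by
  classical
  have hq : NeZero (ℓ ^ n) := ⟨pow_ne_zero _ hℓ.ne_zero⟩
  let v : (Fin r → Fin (ℓ ^ n)) → MvPowerSeries (Fin r) 𝒪 ⧸ Jq 𝒪 r (ℓ ^ n) :=
    fun a => Ideal.Quotient.mk (Jq 𝒪 r (ℓ ^ n)) (mono 𝒪 a)
  let Φ : ((Fin r → Fin (ℓ ^ n)) → 𝒪) →ₗ[𝒪] MvPowerSeries (Fin r) 𝒪 ⧸ Jq 𝒪 r (ℓ ^ n) :=
    Fintype.linearCombination 𝒪 v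
  have hpre : IsPrecomplete (maximalIdeal 𝒪) ((Fin r → Fin (ℓ ^ n)) → 𝒪) :=
    (Fermat.Agent.GJ.Tate.Lim.isAdicComplete_pi (maximalIdeal 𝒪)
      (Fin r → Fin (ℓ ^ n))).toIsPrecomplete
  have hH : IsHausdorff (maximalIdeal (MvPowerSeries (Fin r) 𝒪))
      (MvPowerSeries (Fin r) 𝒪 ⧸ Jq 𝒪 r (ℓ ^ n)) := inferInstance
  have hmap : (maximalIdeal 𝒪).map (algebraMap 𝒪 (MvPowerSeries (Fin r) 𝒪)) ≤
      maximalIdeal (MvPowerSeries (Fin r) 𝒪) := by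
    rw [Ideal.map_le_iff_le_comap]
    intro c hc
    rw [Ideal.mem_comap, mem_maximalIdeal, mem_nonunits_iff, MvPowerSeries.isUnit_iff_constantCoeff]
    rw [mem_maximalIdeal, mem_nonunits_iff] at hc
    simpa [MvPowerSeries.algebraMap_apply] using hc
  have hhaus : IsHausdorff (maximalIdeal 𝒪) (MvPowerSeries (Fin r) 𝒪 ⧸ Jq 𝒪 r (ℓ ^ n)) :=
    IsHausdorff.of_map (J := maximalIdeal (MvPowerSeries (Fin r) 𝒪)) hmap
  obtain ⟨t, ht⟩ := exists_pow_span_X_le (𝒪 := 𝒪) (r := r) hℓ n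
  have hsurj : Function.Surjective
      ((maximalIdeal 𝒪 • ⊤ : Submodule 𝒪 (MvPowerSeries (Fin r) 𝒪 ⧸ Jq 𝒪 r (ℓ ^ n))).mkQ ∘ₗ Φ) := by
    intro y
    obtain ⟨z, rfl⟩ := Submodule.mkQ_surjective _ y
    obtain ⟨g, rfl⟩ := Ideal.Quotient.mk_surjective z
    have hg := Fermat.Agent.S53.sub_truncTotal_mem_psVars_pow t g
    set pt := truncTotal t g with hpt
    -- the polynomial part
    have h1 : Ideal.Quotient.mk (Jq 𝒪 r (ℓ ^ n)) (pt : MvPowerSeries (Fin r) 𝒪) ∈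
        LinearMap.range Φ := by
      rw [Fintype.range_linearCombination]
      refine adjoin_le_span ?_
      show _ ∈ Algebra.adjoin 𝒪 _
      rw [Algebra.adjoin_range_eq_range_aeval]
      refine ⟨pt, ?_⟩
      have h : ((Ideal.Quotient.mkₐ 𝒪 (Jq 𝒪 r (ℓ ^ n))).comp
          (MvPolynomial.coeToMvPowerSeries.algHom 𝒪)) =
          MvPolynomial.aeval (fun s => Ideal.Quotient.mk (Jq 𝒪 r (ℓ ^ n)) (X s)) := by
        apply MvPolynomial.algHom_ext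
        intro s
        simp
      exact (congrArg (fun ψ : MvPolynomial (Fin r) 𝒪 →ₐ[𝒪] _ => ψ pt) h).symm
    obtain ⟨p, hp⟩ := h1
    -- the tail
    have h2 : Ideal.Quotient.mk (Jq 𝒪 r (ℓ ^ n)) (g - (pt : MvPowerSeries (Fin r) 𝒪)) ∈
        Ideal.span {(ℓ : MvPowerSeries (Fin r) 𝒪 ⧸ Jq 𝒪 r (ℓ ^ n))} := by
      refine ht ?_
      have h3 := Ideal.mem_map_of_mem (Ideal.Quotient.mk (Jq 𝒪 r (ℓ ^ n))) hg
      rw [Ideal.map_pow, Ideal.map_span, ← Set.range_comp] at h3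
      exact h3
    obtain ⟨w, hw⟩ := Ideal.mem_span_singleton'.mp h2
    refine ⟨p, ?_⟩
    rw [LinearMap.comp_apply, hp, Submodule.mkQ_apply, Submodule.mkQ_apply, eq_comm,
      Submodule.Quotient.eq, ← map_sub, ← hw]
    have h4 : w * (ℓ : MvPowerSeries (Fin r) 𝒪 ⧸ Jq 𝒪 r (ℓ ^ n)) = (ℓ : 𝒪) • w := by
      have h5 := Algebra.smul_def (ℓ : 𝒪) w
      rw [map_natCast] at h5
      rw [mul_comm]
      exact h5.symm
    rw [h4]
    exact Submodule.smul_mem_smul hℓ𝒪 Submodule.mem_top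
  obtain ⟨p, hp⟩ := surjective_of_mkQ_comp_surjective hsurj (Ideal.Quotient.mk _ f)
  refine ⟨p, ?_⟩
  rw [← Ideal.Quotient.eq_zero_iff_mem, map_sub, ← hp, sub_eq_zero,
    Fintype.linearCombination_apply, map_sum]
  refine Finset.sum_congr rfl fun a _ => ?_
  rw [map_mul]
  exact Algebra.smul_def (p a) (v a)

end Main

end Fermat.Agent.GE6.Level
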